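import Fermat.Agent.ItoCalculus.Integral
import Mathlib.Analysis.Calculus.MeanValue
import Mathlib.Analysis.Calculus.ContDiff.Basic

/-!
# The formula of Itô

Taylor's formula on each cell, with the squares of the increments replaced by the lengths of the
cells: truncated weights make the difference small in square mean.
-/

set_option autoImplicit false

noncomputable section

namespace FA.ItoCalculus

open MeasureTheory ProbabilityTheory Filter Topology Finset
open scoped NNReal ENNReal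
open FA.Donsker (subGrid monotone_subGrid subGrid_le normalFourth integrable_pow_four
  integral_pow_four tendsto_quadVar)

variable {Ω : Type*} {mΩ : MeasurableSpace Ω} {Q : Measure Ω} {B : ℝ≥0 → Ω → ℝ} {t : ℝ≥0}

/-- Convergence to `0` in probability. -/
def NullLim (Q : Measure Ω) (f : ℕ → Ω → ℝ) : Prop :=
  ∀ ε : ℝ, 0 < ε → Tendsto (fun n => Q {ω | ε ≤ |f n ω|}) atTop (𝓝 0)

theorem nullLim_of_ae [IsFiniteMeasure Q] {f : ℕ → Ω → ℝ} (hf : ∀ n, AEMeasurable (f n) Q)
    (h : ∀ᵐ ω ∂Q, Tendsto (fun n => f n ω) atTop (𝓝 0)) : NullLim Q f := fun ε hε => by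
  have := tendstoInMeasure_iff_norm.1 (tendstoInMeasure_of_tendsto_ae (g := fun _ => (0 : ℝ))
    (fun n => (hf n).aestronglyMeasurable) h) ε hε
  simpa only [sub_zero, Real.norm_eq_abs] using this

theorem nullLim_of_sq [IsFiniteMeasure Q] {f : ℕ → Ω → ℝ}
    (hf : ∀ n, Integrable (fun ω => f n ω ^ 2) Q)
    (h : Tendsto (fun n => ∫ ω, f n ω ^ 2 ∂Q) atTop (𝓝 0)) : NullLim Q f := fun ε hε => by
  have h2 : Tendsto (fun n => ENNReal.ofReal ((∫ ω, f n ω ^ 2 ∂Q) / ε ^ 2)) atTop (𝓝 0) := by
    simpa using ENNReal.tendsto_ofReal (h.div_const (ε ^ 2))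
  refine tendsto_of_tendsto_of_tendsto_of_le_of_le tendsto_const_nhds h2 (fun n => zero_le)
    fun n => ?_
  rw [← ofReal_measureReal (measure_ne_top _ _)]
  refine ENNReal.ofReal_le_ofReal ((le_div_iff₀' (by positivity)).2 ?_)
  refine le_trans ?_ (mul_meas_ge_le_integral_of_nonneg
    (Eventually.of_forall fun ω => sq_nonneg (f n ω)) (hf n) (ε ^ 2))
  refine mul_le_mul_of_nonneg_left (measureReal_mono fun ω (hω : ε ≤ |f n ω|) => ?_) (sq_nonneg ε)
  show ε ^ 2 ≤ f n ω ^ 2
  rw [← sq_abs (f n ω)]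
  exact pow_le_pow_left₀ hε.le hω 2

theorem NullLim.of_abs_le_add {f g u : ℕ → Ω → ℝ} (hg : NullLim Q g) (hu : NullLim Q u)
    (h : ∀ n ω, |f n ω| ≤ |g n ω| + |u n ω|) : NullLim Q f := fun ε hε => by
  have h2 := (hg _ (half_pos hε)).add (hu _ (half_pos hε))
  rw [add_zero] at h2
  refine tendsto_of_tendsto_of_tendsto_of_le_of_le tendsto_const_nhds h2 (fun n => zero_le)
    fun n => (measure_mono fun ω (hω : ε ≤ |f n ω|) => ?_).trans (measure_union_le _ _)
  by_cases hc : ε / 2 ≤ |g n ω|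
  · exact Or.inl hc
  · exact Or.inr (show ε / 2 ≤ |u n ω| by linarith [h n ω, not_le.1 hc])

theorem NullLim.const_mul {f : ℕ → Ω → ℝ} (hf : NullLim Q f) {c : ℝ} (hc : c ≠ 0) :
    NullLim Q fun n ω => c * f n ω := fun ε hε => by
  have hc' : 0 < |c| := abs_pos.2 hc
  refine (hf (ε / |c|) (div_pos hε hc')).congr fun n => congrArg Q (Set.ext fun ω => ?_)
  show ε / |c| ≤ |f n ω| ↔ ε ≤ |c * f n ω|
  rw [abs_mul, div_le_iff₀' hc']

theorem nullLim_tendstoInMeasure [IsFiniteMeasure Q] {f : ℕ → Ω → ℝ} {g : Ω → ℝ}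
    (h : NullLim Q fun n ω => f n ω - g ω) : TendstoInMeasure Q f atTop g :=
  tendstoInMeasure_iff_norm.2 fun ε hε => by
    simpa only [Real.norm_eq_abs] using h ε hε

/-- Taylor's formula of the second order. -/
theorem taylor_two {f g k : ℝ → ℝ} (hf : ∀ x, HasDerivAt f (g x) x)
    (hg : ∀ x, HasDerivAt g (k x) x) {x y η : ℝ}
    (h : ∀ w ∈ Set.uIcc x y, |k w - k x| ≤ η) :
    |f y - f x - g x * (y - x) - k x / 2 * (y - x) ^ 2| ≤ η * (y - x) ^ 2 := by
  have hη : 0 ≤ η := (abs_nonneg _).trans (h x Set.left_mem_uIcc)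
  have h1 : ∀ u ∈ Set.uIcc x y, |g u - g x - k x * (u - x)| ≤ η * |y - x| := fun u hu => by
    have hd := (convex_uIcc x y).norm_image_sub_le_of_norm_hasDerivWithin_le
      (f := fun w => g w - k x * w) (f' := fun w => k w - k x) (C := η)
      (fun w _ => ((hg w).sub (by simpa using (hasDerivAt_id w).const_mul (k x))).hasDerivWithinAt)
      (fun w hw => by rw [Real.norm_eq_abs]; exact h w hw) Set.left_mem_uIcc hu
    rw [Real.norm_eq_abs, Real.norm_eq_abs] at hd
    rw [show g u - g x - k x * (u - x) = g u - k x * u - (g x - k x * x) by ring]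
    exact hd.trans (mul_le_mul_of_nonneg_left (Set.abs_sub_left_of_mem_uIcc hu) hη)
  have hd := (convex_uIcc x y).norm_image_sub_le_of_norm_hasDerivWithin_le
    (f := fun w => f w - g x * w - k x / 2 * (w - x) ^ 2)
    (f' := fun w => g w - g x - k x * (w - x)) (C := η * |y - x|)
    (fun w _ => by
      have h2 : HasDerivAt (fun w => k x / 2 * (w - x) ^ 2) (k x * (w - x)) w := by
        have := (((hasDerivAt_id w).sub_const x).pow 2).const_mul (k x / 2)
        refine this.congr_deriv ?_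
        simp
        ring
      exact (((hf w).sub (by simpa using (hasDerivAt_id w).const_mul (g x))).sub
        h2).hasDerivWithinAt)
    (fun w hw => by rw [Real.norm_eq_abs]; exact h1 w hw) Set.left_mem_uIcc Set.right_mem_uIcc
  rw [Real.norm_eq_abs, Real.norm_eq_abs, mul_assoc, abs_mul_abs_self, ← sq] at hd
  refine le_of_eq_of_le (congrArg _ ?_) hd
  ring

/-- The increments over the cells. -/
def incr (B : ℝ≥0 → Ω → ℝ) (t : ℝ≥0) (n i : ℕ) (ω : Ω) : ℝ :=
  B (subGrid t n (i + 1)) ω - B (subGrid t n i) ω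

theorem aemeasurable_incr (hB : IsPreBrownianReal B Q) (n i : ℕ) :
    AEMeasurable (incr B t n i) Q :=
  (hB.aemeasurable _).sub (hB.aemeasurable _)

theorem hasLaw_incr (hB : IsPreBrownianReal B Q) (n i : ℕ) :
    HasLaw (incr B t n i) (gaussianReal 0 (subGrid t n (i + 1) - subGrid t n i)) Q :=
  hasLaw_increment hB (monotone_subGrid t n i.le_succ)

theorem memLp_incr_sq (hB : IsPreBrownianReal B Q) (n i : ℕ) :
    MemLp (fun ω => incr B t n i ω ^ 2) 2 Q := by
  refine (memLp_two_iff_integrable_sq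
    ((aemeasurable_incr hB n i).pow_const 2).aestronglyMeasurable).2 ?_
  refine (Integrable.comp_aemeasurable (g := fun y : ℝ => y ^ 4) (by
    rw [(hasLaw_incr (t := t) hB n i).map_eq]
    exact integrable_pow_four _) (hasLaw_incr (t := t) hB n i).aemeasurable).congr
    (Eventually.of_forall fun ω => ?_)
  show incr B t n i ω ^ 4 = (incr B t n i ω ^ 2) ^ 2
  ring

/-- The squares of the increments, against bounded weights, behave as the lengths of the cells. -/
theorem nullLim_weighted [IsProbabilityMeasure Q] (hB : IsPreBrownianReal B Q) {φ : ℝ → ℝ}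
    (hφ : Measurable φ) {C : ℝ} (hC : ∀ x, |φ x| ≤ C) (t : ℝ≥0) :
    NullLim Q fun n ω => ∑ i ∈ range n,
      φ (B (subGrid t n i) ω) * (incr B t n i ω ^ 2 - (t : ℝ) / n) := by
  have hC0 : 0 ≤ C := (abs_nonneg _).trans (hC 0)
  set Z : ℕ → ℕ → Ω → ℝ := fun n i ω => incr B t n i ω ^ 2 - (t : ℝ) / n
  set A : ℕ → ℕ → Ω → ℝ := fun n i ω => φ (B (subGrid t n i) ω)
  have hle : ∀ n i, subGrid t n i ≤ subGrid t n (i + 1) := fun n i =>
    monotone_subGrid t n i.le_succ
  have hAp : ∀ n i, PastFun B Q (subGrid t n i) (A n i) := fun n i => (pastFun_eval le_rfl).comp hφ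
  have hAm : ∀ n i, AEStronglyMeasurable (A n i) Q := fun n i =>
    (hφ.comp_aemeasurable (hB.aemeasurable _)).aestronglyMeasurable
  have h4 : ∀ n i, Integrable (fun ω => incr B t n i ω ^ 4) Q ∧
      ∫ ω, incr B t n i ω ^ 4 ∂Q = ((t : ℝ) / n) ^ 2 * normalFourth := fun n i => by
    have hl := hasLaw_incr (t := t) hB n i
    refine ⟨Integrable.comp_aemeasurable (g := fun y : ℝ => y ^ 4) (by
      rw [hl.map_eq]; exact integrable_pow_four _) hl.aemeasurable, ?_⟩
    rw [show (fun ω => incr B t n i ω ^ 4) =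
      (fun y : ℝ => y ^ 4) ∘ incr B t n i from rfl,
      hl.integral_comp (by fun_prop), integral_pow_four, NNReal.coe_sub (hle n i), subGrid_mesh]
  have hZ2 : ∀ n i, MemLp (fun ω => incr B t n i ω ^ 2) 2 Q := memLp_incr_sq hB
  have hZ : ∀ n i, MemLp (Z n i) 2 Q := fun n i => (hZ2 n i).sub (memLp_const _)
  have hAZ : ∀ n i, MemLp (fun ω => A n i ω * Z n i ω) 2 Q := fun n i =>
    ((hZ n i).const_mul C).of_le ((hAm n i).mul (hZ n i).1) (Eventually.of_forall fun ω => by
      simp only [Real.norm_eq_abs, abs_mul, abs_of_nonneg hC0]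
      exact mul_le_mul_of_nonneg_right (hC _) (abs_nonneg _))
  have horth : ∀ n i j, i < j → ∫ ω, A n i ω * Z n i ω * (A n j ω * Z n j ω) ∂Q = 0 := by
    intro n i j hij
    have hij' : subGrid t n (i + 1) ≤ subGrid t n j := monotone_subGrid t n hij
    set X : Ω → ℝ := fun ω => A n i ω * Z n i ω * A n j ω
    have hXp : PastFun B Q (subGrid t n j) X :=
      ((((hAp n i).mono ((hle n i).trans hij')).mul
        (((((pastFun_eval hij').sub (pastFun_eval ((hle n i).trans hij'))).comp
          (φ := fun y => y ^ 2) (by fun_prop))).sub (pastFun_const _ _)))).mul (hAp n j)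
    have hXi : Integrable X Q := ((hAZ n i).integrable one_le_two).mul_bdd (c := C) (hAm n j)
      (Eventually.of_forall fun ω => hC _)
    have hXd : Integrable (fun ω => X ω * incr B t n j ω ^ 2) Q :=
      ((hXp.indepFun hB (hle n j)).comp (φ := id) (ψ := fun y : ℝ => y ^ 2) measurable_id
        (by fun_prop)).integrable_mul hXi ((hZ2 n j).integrable one_le_two)
    have e : ∀ ω, A n i ω * Z n i ω * (A n j ω * Z n j ω) =
        X ω * incr B t n j ω ^ 2 - (t : ℝ) / n * X ω := fun ω => by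
      simp only [X, Z]
      ring
    simp only [e]
    rw [integral_sub hXd (hXi.const_mul _), integral_const_mul]
    simp only [incr]
    rw [integral_past_mul_sq hB hXp hXi.1 (hle n j), subGrid_mesh, sub_self]
  refine nullLim_of_sq (fun n => (memLp_finsetSum _ fun i _ => hAZ n i).integrable_sq) ?_
  refine squeeze_zero' (Eventually.of_forall fun n => integral_nonneg fun ω => sq_nonneg _) ?_
    (tendsto_const_div_atTop_nhds_zero_nat (C ^ 2 * (t : ℝ) ^ 2 * normalFourth))
  filter_upwards [eventually_gt_atTop 0] with n hn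
  show ∫ ω, (∑ i ∈ range n, A n i ω * Z n i ω) ^ 2 ∂Q ≤ _
  simp only [sq (∑ i ∈ range n, A n i _ * Z n i _), sum_mul_sum]
  have hint : ∀ i j, Integrable (fun ω => A n i ω * Z n i ω * (A n j ω * Z n j ω)) Q :=
    fun i j => (hAZ n i).integrable_mul (hAZ n j)
  rw [integral_finsetSum _ fun i _ => integrable_finsetSum _ fun j _ => hint i j]
  refine (sum_le_sum (g := fun _ => C ^ 2 * (((t : ℝ) / n) ^ 2 * normalFourth))
    fun i hi => ?_).trans
    (le_of_eq ?_)
  · rw [integral_finsetSum _ fun j _ => hint i j, sum_eq_single_of_mem i hi fun j _ hji => by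
      rcases Nat.lt_or_gt_of_ne hji with h | h
      · rw [← horth n j i h]
        exact integral_congr_ae (Eventually.of_forall fun ω => by ring)
      · exact horth n i j h]
    have hmean : ∫ ω, incr B t n i ω ^ 2 ∂Q = (t : ℝ) / n := by
      simp only [incr]
      rw [integral_increment_sq hB (hle n i), subGrid_mesh]
    have hle4 : ∫ ω, Z n i ω ^ 2 ∂Q ≤ ((t : ℝ) / n) ^ 2 * normalFourth := by
      have hv := variance_eq_integral (hZ2 n i).1.aemeasurable
      rw [hmean] at hv
      show ∫ ω, (incr B t n i ω ^ 2 - (t : ℝ) / n) ^ 2 ∂Q ≤ _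
      rw [← hv, ← (h4 n i).2]
      refine (variance_le_expectation_sq (hZ2 n i).1).trans_eq ?_
      exact integral_congr_ae (Eventually.of_forall fun ω => by
        show (incr B t n i ω ^ 2) ^ 2 = incr B t n i ω ^ 4
        ring)
    refine le_trans ?_ (mul_le_mul_of_nonneg_left hle4 (sq_nonneg C))
    rw [← integral_const_mul]
    refine integral_mono (hint i i) ((hZ n i).integrable_sq.const_mul _) fun ω => ?_
    show A n i ω * Z n i ω * (A n i ω * Z n i ω) ≤ C ^ 2 * Z n i ω ^ 2
    rw [show A n i ω * Z n i ω * (A n i ω * Z n i ω) = A n i ω ^ 2 * Z n i ω ^ 2 by ring,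
      ← sq_abs (A n i ω)]
    exact mul_le_mul_of_nonneg_right (pow_le_pow_left₀ (abs_nonneg _) (hC _) 2) (sq_nonneg _)
  · rw [sum_const, card_range, nsmul_eq_mul]
    field_simp

/-- The weights at the grid points are bounded outside a small set. -/
theorem exists_bound [IsProbabilityMeasure Q] (hB : IsBrownianReal B Q) {φ : ℝ → ℝ}
    (hφ : Continuous φ) (t : ℝ≥0) {η : ℝ≥0∞} (hη : 0 < η) :
    ∃ C : ℝ, 0 ≤ C ∧ Q {ω | ∃ n i, i ≤ n ∧ C < |φ (B (subGrid t n i) ω)|} < η := by
  set S : ℕ → Set Ω := fun C => {ω | ∃ n i, i ≤ n ∧ (C : ℝ) < |φ (B (subGrid t n i) ω)|}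
  have hS : ∀ C, NullMeasurableSet (S C) Q := fun C => by
    have e : S C = ⋃ n : ℕ, ⋃ i ∈ Set.Iic n, {ω | (C : ℝ) < |φ (B (subGrid t n i) ω)|} := by
      ext ω
      simp [S]
    rw [e]
    exact .iUnion fun n => .biUnion (Set.to_countable _) fun i _ =>
      nullMeasurableSet_lt aemeasurable_const
        (continuous_abs.measurable.comp_aemeasurable
          (hφ.measurable.comp_aemeasurable (hB.aemeasurable _)))
  have h0 : Q (⋂ C, S C) = 0 := by
    refine measure_eq_zero_iff_ae_notMem.2 ?_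
    filter_upwards [hB.cont] with ω hω hmem
    obtain ⟨M, hM⟩ := (isCompact_Icc (a := (0 : ℝ≥0)) (b := t)).exists_bound_of_continuousOn
      (hφ.comp hω).continuousOn
    obtain ⟨C, hC⟩ := exists_nat_ge M
    obtain ⟨n, i, hi, hlt⟩ := Set.mem_iInter.1 hmem C
    have := hM (subGrid t n i) ⟨zero_le, subGrid_le t hi⟩
    rw [Real.norm_eq_abs, Function.comp_apply] at this
    linarith
  have hlim := tendsto_measure_iInter_atTop hS (fun a b hab ω hω => by
    obtain ⟨n, i, hi, hlt⟩ := hω
    exact ⟨n, i, hi, lt_of_le_of_lt (Nat.cast_le.2 hab) hlt⟩) ⟨0, measure_ne_top _ _⟩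
  rw [h0] at hlim
  obtain ⟨C, hC⟩ := eventually_atTop.1 (hlim.eventually_lt_const hη)
  exact ⟨C, C.cast_nonneg, hC C le_rfl⟩

/-- The same for continuous weights. -/
theorem nullLim_weighted_continuous [IsProbabilityMeasure Q] (hB : IsBrownianReal B Q) {φ : ℝ → ℝ}
    (hφ : Continuous φ) (t : ℝ≥0) :
    NullLim Q fun n ω => ∑ i ∈ range n,
      φ (B (subGrid t n i) ω) * (incr B t n i ω ^ 2 - (t : ℝ) / n) := fun ε hε => by
  refine ENNReal.tendsto_nhds_zero.2 fun η hη => ?_
  obtain ⟨C, hC0, hC⟩ := exists_bound hB hφ t (ENNReal.half_pos hη.ne')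
  have hlim := nullLim_weighted hB.toIsPreBrownianReal (φ := fun x => max (-C) (min C (φ x)))
    (continuous_const.max (continuous_const.min hφ)).measurable (C := C)
    (fun x => abs_le.2 ⟨le_max_left _ _, max_le (by linarith) (min_le_left _ _)⟩) t ε hε
  filter_upwards [hlim.eventually_le_const (ENNReal.half_pos hη.ne')] with n hn
  refine (measure_mono fun ω (hω : ε ≤ _) => ?_).trans
    (((measure_union_le _ _).trans (add_le_add hC.le hn)).trans_eq (ENNReal.add_halves η))
  by_cases hbad : ∃ n i, i ≤ n ∧ C < |φ (B (subGrid t n i) ω)|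
  · exact Or.inl hbad
  · refine Or.inr ?_
    show ε ≤ |∑ i ∈ range n,
      max (-C) (min C (φ (B (subGrid t n i) ω))) * (incr B t n i ω ^ 2 - (t : ℝ) / n)|
    refine hω.trans_eq (congrArg _ (sum_congr rfl fun i hi => ?_))
    have h := abs_le.1 (not_lt.1 fun h => hbad ⟨n, i, (mem_range.1 hi).le, h⟩)
    rw [min_eq_right h.2, max_eq_right h.1]

/-- **The formula of Itô in probability.** -/
theorem ito_formula_prob (hB : IsBrownianReal B Q) {f : ℝ → ℝ} (hf : ContDiff ℝ 2 f) (t : ℝ≥0) :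
    TendstoInMeasure Q (itoSum B (fun r ω => deriv f (B r ω)) t) atTop fun ω =>
      f (B t ω) - f (B 0 ω) - (1 / 2) * ∫ x in (0 : ℝ)..t, deriv (deriv f) (B x.toNNReal ω) := by
  have := hB.isGaussianProcess.isProbabilityMeasure
  have hP := hB.toIsPreBrownianReal
  set g := deriv f
  set k := deriv g
  have hf1 : ContDiff ℝ (1 + 1) f := by simpa [one_add_one_eq_two] using hf
  obtain ⟨hfd, -, hg1⟩ := contDiff_succ_iff_deriv.1 hf1
  have hg : ∀ x, HasDerivAt g (k x) x := fun x =>
    ((contDiff_one_iff_deriv.1 hg1).1 x).hasDerivAt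
  have hf' : ∀ x, HasDerivAt f (g x) x := fun x => (hfd x).hasDerivAt
  have hk : Continuous k := (contDiff_one_iff_deriv.1 hg1).2
  set R : ℕ → Ω → ℝ := fun n ω => ∑ i ∈ range n, (f (B (subGrid t n (i + 1)) ω) -
    f (B (subGrid t n i) ω) - g (B (subGrid t n i) ω) * incr B t n i ω -
    k (B (subGrid t n i) ω) / 2 * incr B t n i ω ^ 2)
  set QV : ℕ → Ω → ℝ := fun n ω => ∑ i ∈ range n, incr B t n i ω ^ 2
  have hBm : ∀ s : ℝ≥0, AEMeasurable (B s) Q := hP.aemeasurable
  have hcomp : ∀ {φ : ℝ → ℝ}, Continuous φ → ∀ s, AEMeasurable (fun ω => φ (B s ω)) Q :=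
    fun hφ s => hφ.measurable.comp_aemeasurable (hBm s)
  have hfc : Continuous f := hf.continuous
  have hgc : Continuous g := hg1.continuous
  have hRm : ∀ n, AEMeasurable (R n) Q := fun n => Finset.aemeasurable_fun_sum _ fun i _ =>
    (((hcomp hfc _).sub (hcomp hfc _)).sub
      ((hcomp hgc _).mul (aemeasurable_incr hP n i))).sub
        (((hcomp hk _).div_const 2).mul ((aemeasurable_incr hP n i).pow_const 2))
  have hQVm : ∀ n, AEMeasurable (QV n) Q := fun n =>
    Finset.aemeasurable_fun_sum _ fun i _ => (aemeasurable_incr hP n i).pow_const 2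
  have hQV : NullLim Q fun n ω => QV n ω - (t : ℝ) := by
    refine nullLim_of_sq (fun n => ?_) (tendsto_quadVar hP t)
    have hS : MemLp (fun ω => ∑ i ∈ range n, incr B t n i ω ^ 2) 2 Q :=
      memLp_finsetSum _ fun i _ => memLp_incr_sq hP n i
    exact (hS.sub (memLp_const (t : ℝ))).integrable_sq
  have hsmall : ∀ η : ℝ, 0 < η → ∀ᵐ ω ∂Q, ∀ᶠ n in atTop, |R n ω| ≤ η * QV n ω := by
    intro η hη
    filter_upwards [hB.cont] with ω hω
    obtain ⟨M, hM⟩ := (isCompact_Icc (a := (0 : ℝ≥0)) (b := t)).exists_bound_of_continuousOn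
      hω.continuousOn
    obtain ⟨δ, hδ, hkδ⟩ := Metric.uniformContinuousOn_iff_le.1
      ((isCompact_Icc (a := -M) (b := M)).uniformContinuousOn_of_continuous hk.continuousOn) η hη
    obtain ⟨δ', hδ', hBδ⟩ := Metric.uniformContinuousOn_iff.1
      ((isCompact_Icc (a := (0 : ℝ≥0)) (b := t)).uniformContinuousOn_of_continuous
        hω.continuousOn) δ hδ
    filter_upwards [eventually_mesh_lt t hδ'] with n hn
    refine (abs_sum_le_sum_abs _ _).trans ?_
    simp only [QV, mul_sum]
    refine sum_le_sum fun i hi => ?_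
    have ha : subGrid t n i ∈ Set.Icc 0 t := ⟨zero_le, subGrid_le t (mem_range.1 hi).le⟩
    have hb : subGrid t n (i + 1) ∈ Set.Icc 0 t := ⟨zero_le, subGrid_le t (mem_range.1 hi)⟩
    have hd : dist (B (subGrid t n (i + 1)) ω) (B (subGrid t n i) ω) < δ := hBδ _ hb _ ha (by
      rw [NNReal.dist_eq, subGrid_mesh, abs_of_nonneg (by positivity)]
      exact hn.2)
    refine taylor_two hf' hg fun w hw => ?_
    have hIcc : Set.uIcc (B (subGrid t n i) ω) (B (subGrid t n (i + 1)) ω) ⊆ Set.Icc (-M) M :=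
      Set.uIcc_subset_Icc (abs_le.1 (hM _ ha)) (abs_le.1 (hM _ hb))
    rw [← Real.dist_eq]
    refine hkδ w (hIcc hw) _ (hIcc Set.left_mem_uIcc) ?_
    rw [Real.dist_eq]
    rw [Real.dist_eq] at hd
    exact (Set.abs_sub_left_of_mem_uIcc hw).trans hd.le
  have hR : NullLim Q R := fun ε hε => by
    set η := ε / 2 / ((t : ℝ) + 1)
    have hη : 0 < η := by positivity
    have hD : NullLim Q fun n ω => max 0 (|R n ω| - η * QV n ω) := by
      refine nullLim_of_ae (fun n => (aemeasurable_const).max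
        ((continuous_abs.measurable.comp_aemeasurable (hRm n)).sub ((hQVm n).const_mul η))) ?_
      filter_upwards [hsmall η hη] with ω hω
      refine tendsto_const_nhds.congr' ?_
      filter_upwards [hω] with n hn
      exact (max_eq_left (sub_nonpos.2 hn)).symm
    have h2 := (hD _ (half_pos hε)).add (hQV 1 one_pos)
    rw [add_zero] at h2
    refine tendsto_of_tendsto_of_tendsto_of_le_of_le tendsto_const_nhds h2 (fun n => zero_le)
      fun n => (measure_mono fun ω (hω : ε ≤ |R n ω|) => ?_).trans (measure_union_le _ _)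
    by_cases hc : (1 : ℝ) ≤ |QV n ω - (t : ℝ)|
    · exact Or.inr hc
    · refine Or.inl ?_
      show ε / 2 ≤ |max 0 (|R n ω| - η * QV n ω)|
      rw [abs_of_nonneg (le_max_left _ _)]
      refine le_max_of_le_right ?_
      have : η * QV n ω ≤ ε / 2 := by
        calc η * QV n ω ≤ η * ((t : ℝ) + 1) :=
              mul_le_mul_of_nonneg_left (by linarith [(abs_lt.1 (not_le.1 hc)).2]) hη.le
          _ = ε / 2 := div_mul_cancel₀ _ (by positivity)
      linarith
  set J : Ω → ℝ := fun ω => ∫ x in (0 : ℝ)..t, k (B x.toNNReal ω)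
  set U : ℕ → Ω → ℝ := fun n ω => ∑ i ∈ range n, (t : ℝ) / n * k (B (subGrid t n i) ω)
  have hUm : ∀ n, AEMeasurable (U n) Q := fun n =>
    Finset.aemeasurable_fun_sum _ fun i _ => (hcomp hk _).const_mul _
  have hUlim : ∀ᵐ ω ∂Q, Tendsto (fun n => U n ω) atTop (𝓝 (J ω)) := by
    filter_upwards [hB.cont] with ω hω
    refine (tendsto_riemann t.coe_nonneg
      (hk.comp (hω.comp continuous_real_toNNReal)).continuousOn).congr fun n =>
        sum_congr rfl fun i _ => ?_
    rw [Function.comp_apply, Function.comp_apply, ← coe_subGrid, Real.toNNReal_coe]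
  have hJm : AEMeasurable J Q := aemeasurable_of_tendsto_metrizable_ae atTop hUm hUlim
  have hU : NullLim Q fun n ω => U n ω - J ω :=
    nullLim_of_ae (fun n => (hUm n).sub hJm) (by
      filter_upwards [hUlim] with ω hω
      simpa using hω.sub_const (J ω))
  set M : ℕ → Ω → ℝ := fun n ω =>
    ∑ i ∈ range n, k (B (subGrid t n i) ω) * (incr B t n i ω ^ 2 - (t : ℝ) / n)
  have hM : NullLim Q M := nullLim_weighted_continuous hB hk t
  have hMU : NullLim Q fun n ω => (1 / 2 : ℝ) * (M n ω + (U n ω - J ω)) :=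
    (hM.of_abs_le_add hU fun n ω => abs_add_le _ _).const_mul (by norm_num)
  refine nullLim_tendstoInMeasure fun ε hε => ?_
  refine (hR.of_abs_le_add hMU (f := fun n ω => R n ω + 1 / 2 * (M n ω + (U n ω - J ω)))
    (fun n ω => abs_add_le _ _) ε hε).congr' ?_
  filter_upwards [eventually_gt_atTop 0] with n hn
  refine congrArg Q (Set.ext fun ω => ?_)
  show ε ≤ |R n ω + 1 / 2 * (M n ω + (U n ω - J ω))| ↔
    ε ≤ |itoSum B (fun r ω => g (B r ω)) t n ω - (f (B t ω) - f (B 0 ω) - 1 / 2 * J ω)|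
  have hkey : ∑ i ∈ range n, (f (B (subGrid t n (i + 1)) ω) - f (B (subGrid t n i) ω)) =
      f (B t ω) - f (B 0 ω) := by
    rw [sum_range_sub (fun i => f (B (subGrid t n i) ω)), subGrid_self t hn, subGrid_zero]
  have e : R n ω + 1 / 2 * (M n ω + (U n ω - J ω)) =
      -(itoSum B (fun r ω => g (B r ω)) t n ω - (f (B t ω) - f (B 0 ω) - 1 / 2 * J ω)) := by
    rw [← hkey]
    simp only [R, M, U, itoSum, partSum, incr, sum_sub_distrib, mul_sub, mul_add, mul_sum]
    have e2 : ∀ i, k (B (subGrid t n i) ω) / 2 *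
        (B (subGrid t n (i + 1)) ω - B (subGrid t n i) ω) ^ 2 = 1 / 2 * (k (B (subGrid t n i) ω) *
          (B (subGrid t n (i + 1)) ω - B (subGrid t n i) ω) ^ 2) := fun i => by ring
    simp only [e2, mul_comm (k _) ((t : ℝ) / n)]
    ring
  rw [e, abs_neg]

/-- Lipschitz functions of the path are integrands. -/
theorem integrand_lipschitz [IsProbabilityMeasure Q] (hB : IsPreBrownianReal B Q) {φ : ℝ → ℝ}
    {K : ℝ≥0} (hφ : LipschitzWith K φ) (t : ℝ≥0) : Integrand B Q t fun r ω => φ (B r ω) where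
  past r _ := (pastFun_eval le_rfl).comp hφ.continuous.measurable
  memLp r _ := by
    refine (((hB.isGaussianProcess.hasGaussianLaw_eval r).memLp_two.abs.const_mul (K : ℝ)).add
      (memLp_const |φ 0|)).of_le (hφ.continuous.measurable.comp_aemeasurable
        (hB.aemeasurable r)).aestronglyMeasurable (Eventually.of_forall fun ω => ?_)
    simp only [Pi.add_apply, Pi.abs_apply, Real.norm_eq_abs]
    refine le_trans ?_ (le_abs_self _)
    have h := hφ.dist_le_mul (B r ω) 0
    simp only [Real.dist_eq, sub_zero] at h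
    linarith [abs_sub_abs_le_abs_sub (φ (B r ω)) (φ 0)]
  cont r _ := by
    refine squeeze_zero (fun s => integral_nonneg fun ω => sq_nonneg _) (fun s => ?_)
      (g := fun s : ℝ≥0 => (K : ℝ) ^ 2 * |(s : ℝ) - r|) ?_
    · have e : ∫ ω, (B s ω - B r ω) ^ 2 ∂Q = |(s : ℝ) - r| := by
        rcases le_total r s with h | h
        · rw [integral_increment_sq hB h, abs_of_nonneg (sub_nonneg.2 (NNReal.coe_le_coe.2 h))]
        · rw [abs_sub_comm, abs_of_nonneg (sub_nonneg.2 (NNReal.coe_le_coe.2 h)),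
            ← integral_increment_sq hB h]
          exact integral_congr_ae (Eventually.of_forall fun ω => by ring)
      rw [← e, ← integral_const_mul]
      refine integral_mono_of_nonneg (Eventually.of_forall fun ω => sq_nonneg _)
        ((memLp_increment hB r s).integrable_sq.const_mul _) (Eventually.of_forall fun ω => ?_)
      show (φ (B s ω) - φ (B r ω)) ^ 2 ≤ (K : ℝ) ^ 2 * (B s ω - B r ω) ^ 2
      rw [← mul_pow, ← sq_abs (φ _ - φ _), ← sq_abs ((K : ℝ) * _), abs_mul,
        abs_of_nonneg K.coe_nonneg]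
      exact pow_le_pow_left₀ (abs_nonneg _) (hφ.dist_le_mul _ _) 2
    · have hc : Continuous fun s : ℝ≥0 => (K : ℝ) ^ 2 * |(s : ℝ) - r| := by fun_prop
      simpa using (hc.tendsto r).mono_left nhdsWithin_le_nhds

/-- **The formula of Itô for the integral.** -/
theorem ito_formula_ae (hB : IsBrownianReal B Q) {f : ℝ → ℝ} (hf : ContDiff ℝ 2 f) {t : ℝ≥0}
    (h : Integrand B Q t fun r ω => deriv f (B r ω)) {I : Ω → ℝ}
    (hI : IsItoIntegral B Q (fun r ω => deriv f (B r ω)) t I) :
    (fun ω => f (B t ω) - f (B 0 ω)) =ᵐ[Q] fun ω =>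
      I ω + (1 / 2) * ∫ x in (0 : ℝ)..t, deriv (deriv f) (B x.toNNReal ω) := by
  have := hB.isGaussianProcess.isProbabilityMeasure
  have h1 : TendstoInMeasure Q (itoSum B (fun r ω => deriv f (B r ω)) t) atTop I :=
    nullLim_tendstoInMeasure (nullLim_of_sq
      (fun n => ((h.memLp_itoSum hB.toIsPreBrownianReal n).sub hI.1).integrable_sq) hI.2)
  filter_upwards [tendstoInMeasure_ae_unique h1 (ito_formula_prob hB hf t)] with ω hω
  linarith

end FA.ItoCalculus
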