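import Fermat.Agent.ItoCalculus.Isometry
import Fermat.Agent.Donsker.QuadVar
import Mathlib.MeasureTheory.Integral.IntervalIntegral.Basic

/-!
# The integral of Itô

Left point sums over two partitions differ in square mean by the sum, over the common parts of the
cells, of the length times the square distance of the weights; so they converge as the mesh shrinks.
-/

set_option autoImplicit false

noncomputable section

namespace FA.ItoCalculus

open MeasureTheory ProbabilityTheory Filter Topology Finset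
open scoped NNReal ENNReal
open FA.Donsker (subGrid monotone_subGrid subGrid_le)

variable {Ω : Type*} {mΩ : MeasurableSpace Ω} {Q : Measure Ω} {B : ℝ≥0 → Ω → ℝ}
  {H : ℝ≥0 → Ω → ℝ} {t : ℝ≥0}

/-- A process on `[0, t]` that depends on the past only and is continuous in square mean. -/
structure Integrand (B : ℝ≥0 → Ω → ℝ) (Q : Measure Ω) (t : ℝ≥0) (H : ℝ≥0 → Ω → ℝ) : Prop where
  past : ∀ r ≤ t, PastFun B Q r (H r)
  memLp : ∀ r ≤ t, MemLp (H r) 2 Q
  cont : ∀ r ≤ t, Tendsto (fun s => ∫ ω, (H s ω - H r ω) ^ 2 ∂Q) (𝓝[Set.Iic t] r) (𝓝 0)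

/-- The left point sum over a partition. -/
def partSum (B H : ℝ≥0 → Ω → ℝ) (s : ℕ → ℝ≥0) (n : ℕ) (ω : Ω) : ℝ :=
  ∑ k ∈ range n, H (s k) ω * (B (s (k + 1)) ω - B (s k) ω)

/-- The left point sum over `n` equal cells of `[0, t]`. -/
def itoSum (B H : ℝ≥0 → Ω → ℝ) (t : ℝ≥0) (n : ℕ) : Ω → ℝ := partSum B H (subGrid t n) n

/-- The integral is the limit in square mean of the sums. -/
def IsItoIntegral (B : ℝ≥0 → Ω → ℝ) (Q : Measure Ω) (H : ℝ≥0 → Ω → ℝ) (t : ℝ≥0) (I : Ω → ℝ) :
    Prop :=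
  MemLp I 2 Q ∧ Tendsto (fun n => ∫ ω, (itoSum B H t n ω - I ω) ^ 2 ∂Q) atTop (𝓝 0)

theorem l2_norm_sq {f : Ω → ℝ} (hf : MemLp f 2 Q) : ‖hf.toLp f‖ ^ 2 = ∫ ω, f ω ^ 2 ∂Q := by
  rw [← real_inner_self_eq_norm_sq, L2.inner_def]
  refine integral_congr_ae ?_
  filter_upwards [hf.coeFn_toLp] with ω hω
  rw [hω]
  simp [sq]

theorem l2_dist_sq {f g : Ω → ℝ} (hf : MemLp f 2 Q) (hg : MemLp g 2 Q) :
    dist (hf.toLp f) (hg.toLp g) ^ 2 = ∫ ω, (f ω - g ω) ^ 2 ∂Q := by
  rw [dist_eq_norm, ← MemLp.toLp_sub, l2_norm_sq]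
  rfl

/-- The sum of the overlaps with the cells of a partition. -/
theorem sum_overlap {i₀ i₁ : ℝ} (hi : i₀ ≤ i₁) (s : ℕ → ℝ) {n : ℕ} (h0 : s 0 ≤ i₀)
    (h1 : i₁ ≤ s n) : ∑ j ∈ range n, overlap i₀ i₁ (s j) (s (j + 1)) = i₁ - i₀ := by
  simp only [overlap]
  rw [sum_range_sub (fun j => clampTo i₀ i₁ (s j))]
  simp [clampTo, max_eq_right h0, max_eq_left (hi.trans h1), min_eq_right h1, min_eq_left hi]

variable {s s' : ℕ → ℝ≥0} {n n' : ℕ}

theorem Integrand.memLp_partSum (hB : IsPreBrownianReal B Q) (h : Integrand B Q t H)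
    (hs : Monotone s) (hn : s n ≤ t) : MemLp (partSum B H s n) 2 Q :=
  memLp_finsetSum _ fun k hk =>
    have hk' : s k ≤ t := (hs (mem_range.1 hk).le).trans hn
    (h.past _ hk').memLp_mul hB (h.memLp _ hk') (hs k.le_succ)

theorem Integrand.integral_partSum (hB : IsPreBrownianReal B Q) (h : Integrand B Q t H)
    (hs : Monotone s) (hn : s n ≤ t) {r : ℝ≥0} {φ : Ω → ℝ} (hr : r ≤ s 0)
    (hφ : PastFun B Q r φ) (hφm : AEStronglyMeasurable φ Q) (C : ℝ) (hC : ∀ ω, |φ ω| ≤ C) :
    ∫ ω, partSum B H s n ω * φ ω ∂Q = 0 := by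
  have hi : ∀ k ∈ range n,
      Integrable (fun ω => H (s k) ω * (B (s (k + 1)) ω - B (s k) ω) * φ ω) Q := fun k hk => by
    have hk' : s k ≤ t := (hs (mem_range.1 hk).le).trans hn
    have := hB.isGaussianProcess.isProbabilityMeasure
    exact ((h.past _ hk').memLp_mul hB (h.memLp _ hk') (hs k.le_succ)).integrable one_le_two
      |>.mul_bdd (c := C) hφm (Eventually.of_forall fun ω => hC ω)
  simp only [partSum, sum_mul]
  rw [integral_finsetSum _ hi]
  refine sum_eq_zero fun k hk => ?_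
  have hk' : s k ≤ t := (hs (mem_range.1 hk).le).trans hn
  rw [← integral_past_mul hB ((h.past _ hk').mul (hφ.mono (hr.trans (hs (Nat.zero_le k)))))
    ((h.memLp _ hk').1.mul hφm) (hs k.le_succ)]
  exact integral_congr_ae (Eventually.of_forall fun ω => by ring)

theorem Integrand.integral_partSum_mul (hB : IsPreBrownianReal B Q) (h : Integrand B Q t H)
    (hs : Monotone s) (hs' : Monotone s') (hn : s n ≤ t) (hn' : s' n' ≤ t) :
    ∫ ω, partSum B H s n ω * partSum B H s' n' ω ∂Q = ∑ i ∈ range n, ∑ j ∈ range n',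
      overlap (s i) (s (i + 1)) (s' j) (s' (j + 1)) * ∫ ω, H (s i) ω * H (s' j) ω ∂Q := by
  have hm : ∀ k < n, s k ≤ t := fun k hk => (hs hk.le).trans hn
  have hm' : ∀ k < n', s' k ≤ t := fun k hk => (hs' hk.le).trans hn'
  have hint : ∀ i ∈ range n, ∀ j ∈ range n', Integrable (fun ω =>
      H (s i) ω * (B (s (i + 1)) ω - B (s i) ω) *
        (H (s' j) ω * (B (s' (j + 1)) ω - B (s' j) ω))) Q := fun i hi j hj => by
    have hi' := hm i (mem_range.1 hi)
    have hj' := hm' j (mem_range.1 hj)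
    exact MemLp.integrable_mul ((h.past _ hi').memLp_mul hB (h.memLp _ hi') (hs i.le_succ))
      ((h.past _ hj').memLp_mul hB (h.memLp _ hj') (hs' j.le_succ))
  simp only [partSum, sum_mul_sum]
  rw [integral_finsetSum _ fun i hi => integrable_finsetSum _ (hint i hi)]
  refine sum_congr rfl fun i hi => ?_
  rw [integral_finsetSum _ (hint i hi)]
  exact sum_congr rfl fun j hj => integral_mul_mul hB (hs i.le_succ) (hs' j.le_succ)
    (h.past _ (hm i (mem_range.1 hi))) (h.past _ (hm' j (mem_range.1 hj)))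
    (h.memLp _ (hm i (mem_range.1 hi))) (h.memLp _ (hm' j (mem_range.1 hj)))

/-- The square mean of a sum. -/
theorem Integrand.integral_partSum_sq (hB : IsPreBrownianReal B Q) (h : Integrand B Q t H)
    (hs : Monotone s) (hn : s n ≤ t) :
    ∫ ω, partSum B H s n ω ^ 2 ∂Q =
      ∑ i ∈ range n, ((s (i + 1) : ℝ) - s i) * ∫ ω, H (s i) ω ^ 2 ∂Q := by
  simp only [sq]
  rw [h.integral_partSum_mul hB hs hs hn hn]
  refine sum_congr rfl fun i hi => ?_
  rw [sum_eq_single_of_mem i hi]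
  · rw [overlap_eq (NNReal.coe_le_coe.2 (hs i.le_succ)) (NNReal.coe_le_coe.2 (hs i.le_succ)),
      min_self, max_self, max_eq_right (sub_nonneg.2 (NNReal.coe_le_coe.2 (hs i.le_succ)))]
  · intro j _ hij
    rw [overlap_eq (NNReal.coe_le_coe.2 (hs i.le_succ)) (NNReal.coe_le_coe.2 (hs j.le_succ)),
      max_eq_left, zero_mul]
    rcases Nat.lt_or_gt_of_ne hij with hlt | hlt
    · have : (s (j + 1) : ℝ) ≤ s i := NNReal.coe_le_coe.2 (hs hlt)
      linarith [min_le_right (s (i + 1) : ℝ) (s (j + 1)), le_max_left (s i : ℝ) (s j)]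
    · have : (s (i + 1) : ℝ) ≤ s j := NNReal.coe_le_coe.2 (hs hlt)
      linarith [min_le_left (s (i + 1) : ℝ) (s (j + 1)), le_max_right (s i : ℝ) (s j)]

/-- **The distance of two sums.** -/
theorem Integrand.integral_sub_sq_le (hB : IsPreBrownianReal B Q) (h : Integrand B Q t H)
    (hs : Monotone s) (hs' : Monotone s') (hn : s n ≤ t) (he0 : s 0 = s' 0) (he : s n = s' n')
    {ε : ℝ}
    (hε : ∀ i < n, ∀ j < n', 0 < overlap (s i) (s (i + 1)) (s' j) (s' (j + 1)) →
      ∫ ω, (H (s i) ω - H (s' j) ω) ^ 2 ∂Q ≤ ε) :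
    ∫ ω, (partSum B H s n ω - partSum B H s' n' ω) ^ 2 ∂Q ≤ ε * ((s n : ℝ) - s 0) := by
  have hn' : s' n' ≤ t := he ▸ hn
  set o : ℕ → ℕ → ℝ := fun i j => overlap (s i) (s (i + 1)) (s' j) (s' (j + 1))
  have hrow : ∀ i ∈ range n, ∑ j ∈ range n', o i j = (s (i + 1) : ℝ) - s i := fun i hi =>
    sum_overlap (NNReal.coe_le_coe.2 (hs i.le_succ)) (fun j => (s' j : ℝ))
      (NNReal.coe_le_coe.2 (he0 ▸ hs (Nat.zero_le i)))
      (NNReal.coe_le_coe.2 (he ▸ hs (mem_range.1 hi)))
  have hcol : ∀ j ∈ range n', ∑ i ∈ range n, o i j = (s' (j + 1) : ℝ) - s' j := fun j hj => by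
    rw [sum_congr rfl fun i _ => overlap_comm (NNReal.coe_le_coe.2 (hs i.le_succ))
      (NNReal.coe_le_coe.2 (hs' j.le_succ))]
    exact sum_overlap (NNReal.coe_le_coe.2 (hs' j.le_succ)) (fun i => (s i : ℝ))
      (NNReal.coe_le_coe.2 (he0.symm ▸ hs' (Nat.zero_le j)))
      (NNReal.coe_le_coe.2 (he.symm ▸ hs' (mem_range.1 hj)))
  have hA := h.memLp_partSum hB hs hn
  have hA' := h.memLp_partSum hB hs' hn'
  have hexp : ∫ ω, (partSum B H s n ω - partSum B H s' n' ω) ^ 2 ∂Q =
      ∑ i ∈ range n, ∑ j ∈ range n', o i j * ∫ ω, (H (s i) ω - H (s' j) ω) ^ 2 ∂Q := by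
    have hsq : ∀ i ∈ range n, ∀ j ∈ range n', ∫ ω, (H (s i) ω - H (s' j) ω) ^ 2 ∂Q =
        ∫ ω, H (s i) ω ^ 2 ∂Q + ∫ ω, H (s' j) ω ^ 2 ∂Q - 2 * ∫ ω, H (s i) ω * H (s' j) ω ∂Q := by
      intro i hi j hj
      have ha := h.memLp _ ((hs (mem_range.1 hi).le).trans hn)
      have hb := h.memLp _ ((hs' (mem_range.1 hj).le).trans hn')
      have i3 : Integrable (fun ω => H (s i) ω * H (s' j) ω) Q := ha.integrable_mul hb
      have i12 : Integrable (fun ω => H (s i) ω ^ 2 + H (s' j) ω ^ 2) Q :=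
        ha.integrable_sq.add hb.integrable_sq
      rw [← integral_add ha.integrable_sq hb.integrable_sq, ← integral_const_mul,
        ← integral_sub i12 (i3.const_mul 2)]
      exact integral_congr_ae (Eventually.of_forall fun ω => by ring)
    have hpq : Integrable (fun ω => partSum B H s n ω * partSum B H s' n' ω) Q :=
      hA.integrable_mul hA'
    have h12 : Integrable (fun ω => partSum B H s n ω ^ 2 + partSum B H s' n' ω ^ 2) Q :=
      hA.integrable_sq.add hA'.integrable_sq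
    calc ∫ ω, (partSum B H s n ω - partSum B H s' n' ω) ^ 2 ∂Q
        = ∫ ω, partSum B H s n ω ^ 2 ∂Q + ∫ ω, partSum B H s' n' ω ^ 2 ∂Q -
            2 * ∫ ω, partSum B H s n ω * partSum B H s' n' ω ∂Q := by
          rw [← integral_add hA.integrable_sq hA'.integrable_sq, ← integral_const_mul,
            ← integral_sub h12 (hpq.const_mul 2)]
          exact integral_congr_ae (Eventually.of_forall fun ω => by ring)
      _ = _ := by
          rw [h.integral_partSum_sq hB hs hn, h.integral_partSum_sq hB hs' hn',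
            h.integral_partSum_mul hB hs hs' hn hn',
            sum_congr rfl fun i hi => by rw [← hrow i hi, sum_mul],
            sum_congr rfl (s₁ := range n') fun j hj => by rw [← hcol j hj, sum_mul],
            sum_comm (s := range n') (t := range n), ← sum_add_distrib, mul_sum, ← sum_sub_distrib]
          refine sum_congr rfl fun i hi => ?_
          rw [← sum_add_distrib, mul_sum, ← sum_sub_distrib]
          refine sum_congr rfl fun j hj => ?_
          rw [hsq i hi j hj]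
          ring
  rw [hexp, ← sum_range_sub (fun i => (s i : ℝ)) n, mul_sum]
  refine sum_le_sum fun i hi => ?_
  rw [← hrow i hi, mul_sum]
  refine sum_le_sum fun j hj => ?_
  rcases (overlap_nonneg (NNReal.coe_le_coe.2 (hs i.le_succ))
    (NNReal.coe_le_coe.2 (hs' j.le_succ))).lt_or_eq with hpos | hzero
  · rw [mul_comm ε]
    exact mul_le_mul_of_nonneg_left (hε i (mem_range.1 hi) j (mem_range.1 hj) hpos) hpos.le
  · simp only [o, ← hzero, zero_mul, mul_zero, le_refl]

/-- The square mean modulus of continuity is uniform. -/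
theorem Integrand.uniform (h : Integrand B Q t H) {ε : ℝ} (hε : 0 < ε) :
    ∃ δ > 0, ∀ r ≤ t, ∀ u ≤ t, dist r u < δ → ∫ ω, (H r ω - H u ω) ^ 2 ∂Q ≤ ε := by
  set c : Set.Icc 0 t → Lp ℝ 2 Q := fun r => (h.memLp r.1 r.2.2).toLp (H r.1)
  have hc : Continuous c := by
    refine continuous_iff_continuousAt.2 fun r => ?_
    rw [ContinuousAt, tendsto_iff_dist_tendsto_zero]
    have h1 : Tendsto (fun u : Set.Icc 0 t => (u : ℝ≥0)) (𝓝 r) (𝓝[Set.Iic t] (r : ℝ≥0)) :=
      tendsto_nhdsWithin_of_tendsto_nhds_of_eventually_within _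
        (continuous_subtype_val.tendsto r) (Eventually.of_forall fun u => u.2.2)
    have h2 := (((h.cont r.1 r.2.2).comp h1).sqrt)
    rw [Real.sqrt_zero] at h2
    refine h2.congr fun u => ?_
    rw [Function.comp_apply, ← l2_dist_sq (h.memLp u.1 u.2.2) (h.memLp r.1 r.2.2),
      Real.sqrt_sq dist_nonneg]
  have : CompactSpace (Set.Icc (0 : ℝ≥0) t) := isCompact_iff_compactSpace.1 isCompact_Icc
  obtain ⟨δ, hδ, hcδ⟩ := Metric.uniformContinuous_iff.1
    (CompactSpace.uniformContinuous_of_continuous hc) (√ε) (Real.sqrt_pos.2 hε)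
  refine ⟨δ, hδ, fun r hr u hu hd => ?_⟩
  have h1 : dist (c ⟨r, zero_le, hr⟩) (c ⟨u, zero_le, hu⟩) < √ε := hcδ hd
  rw [← l2_dist_sq (h.memLp r hr) (h.memLp u hu), ← Real.sq_sqrt hε.le]
  exact pow_le_pow_left₀ dist_nonneg h1.le 2

/-- **Fine partitions give close sums.** -/
theorem Integrand.close (hB : IsPreBrownianReal B Q) (h : Integrand B Q t H) {ε : ℝ} (hε : 0 < ε) :
    ∃ δ > 0, ∀ (s s' : ℕ → ℝ≥0) (n n' : ℕ), Monotone s → Monotone s' → s n ≤ t → s 0 = s' 0 →
      s n = s' n' → (∀ i < n, (s (i + 1) : ℝ) - s i < δ) →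
      (∀ j < n', (s' (j + 1) : ℝ) - s' j < δ) →
      ∫ ω, (partSum B H s n ω - partSum B H s' n' ω) ^ 2 ∂Q ≤ ε := by
  obtain ⟨δ, hδ, hu⟩ := h.uniform (show 0 < ε / ((t : ℝ) + 1) by positivity)
  refine ⟨δ, hδ, fun s s' n n' hs hs' hn he0 he hm hm' => ?_⟩
  refine (h.integral_sub_sq_le hB hs hs' hn he0 he (ε := ε / ((t : ℝ) + 1))
    fun i hi j hj ho => ?_).trans ?_
  · refine hu _ ((hs hi.le).trans hn) _ ((hs' hj.le).trans (he ▸ hn)) ?_
    rw [overlap_eq (NNReal.coe_le_coe.2 (hs i.le_succ)) (NNReal.coe_le_coe.2 (hs' j.le_succ))] at ho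
    have h2 : 0 < min (s (i + 1) : ℝ) (s' (j + 1)) - max (s i : ℝ) (s' j) := by
      by_contra hne
      rw [max_eq_left (not_lt.1 hne)] at ho
      exact lt_irrefl _ ho
    rw [NNReal.dist_eq, abs_lt]
    constructor <;> linarith [hm i hi, hm' j hj, min_le_left (s (i + 1) : ℝ) (s' (j + 1)),
      min_le_right (s (i + 1) : ℝ) (s' (j + 1)), le_max_left (s i : ℝ) (s' j),
      le_max_right (s i : ℝ) (s' j)]
  · have h1 : (s n : ℝ) - s 0 ≤ (t : ℝ) + 1 := by
      linarith [NNReal.coe_le_coe.2 hn, (s 0).coe_nonneg]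
    calc ε / ((t : ℝ) + 1) * ((s n : ℝ) - s 0) ≤ ε / ((t : ℝ) + 1) * ((t : ℝ) + 1) :=
          mul_le_mul_of_nonneg_left h1 (by positivity)
      _ = ε := div_mul_cancel₀ _ (by positivity)

theorem coe_subGrid (t : ℝ≥0) (n k : ℕ) : (subGrid t n k : ℝ) = (t : ℝ) * k / n := by
  simp [subGrid]

theorem subGrid_self (t : ℝ≥0) {n : ℕ} (hn : 0 < n) : subGrid t n n = t := by
  rw [subGrid, mul_div_cancel_right₀ _ (Nat.cast_ne_zero.2 hn.ne')]

theorem subGrid_zero (t : ℝ≥0) (n : ℕ) : subGrid t n 0 = 0 := by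
  simp [subGrid]

theorem subGrid_mesh (t : ℝ≥0) (n k : ℕ) :
    (subGrid t n (k + 1) : ℝ) - subGrid t n k = (t : ℝ) / n := by
  rw [coe_subGrid, coe_subGrid]
  push_cast
  ring

theorem eventually_mesh_lt (t : ℝ≥0) {δ : ℝ} (hδ : 0 < δ) :
    ∀ᶠ n : ℕ in atTop, 0 < n ∧ (t : ℝ) / n < δ :=
  (eventually_gt_atTop 0).and
    ((tendsto_const_div_atTop_nhds_zero_nat (t : ℝ)).eventually_lt_const hδ)

theorem Integrand.memLp_itoSum (hB : IsPreBrownianReal B Q) (h : Integrand B Q t H) (n : ℕ) :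
    MemLp (itoSum B H t n) 2 Q :=
  h.memLp_partSum hB (monotone_subGrid t n) (subGrid_le t le_rfl)

/-- **The integral exists.** -/
theorem Integrand.exists_integral (hB : IsPreBrownianReal B Q) (h : Integrand B Q t H) :
    ∃ I, IsItoIntegral B Q H t I := by
  set v : ℕ → Lp ℝ 2 Q := fun n => (h.memLp_itoSum hB n).toLp (itoSum B H t n)
  have hv : CauchySeq v := by
    refine Metric.cauchySeq_iff.2 fun ε hε => ?_
    obtain ⟨δ, hδ, hc⟩ := h.close hB (show 0 < (ε / 2) ^ 2 by positivity)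
    obtain ⟨N, hN⟩ := eventually_atTop.1 (eventually_mesh_lt t hδ)
    refine ⟨N, fun m hm n hn => lt_of_le_of_lt ?_ (half_lt_self hε)⟩
    refine (pow_le_pow_iff_left₀ dist_nonneg (by linarith) two_ne_zero).1 ?_
    rw [l2_dist_sq]
    refine hc _ _ m n (monotone_subGrid t m) (monotone_subGrid t n) (subGrid_le t le_rfl)
      (by rw [subGrid_zero, subGrid_zero])
      (by rw [subGrid_self t (hN m hm).1, subGrid_self t (hN n hn).1])
      (fun i _ => (subGrid_mesh t m i).trans_lt (hN m hm).2)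
      fun j _ => (subGrid_mesh t n j).trans_lt (hN n hn).2
  obtain ⟨I, hI⟩ := cauchySeq_tendsto_of_complete hv
  refine ⟨I, Lp.memLp I, ?_⟩
  have h2 := (tendsto_iff_dist_tendsto_zero.1 hI).pow 2
  rw [zero_pow two_ne_zero] at h2
  refine h2.congr fun n => ?_
  conv_lhs => rw [← Lp.toLp_coeFn I (Lp.memLp I)]
  exact l2_dist_sq _ _

theorem IsItoIntegral.tendsto_toLp (hB : IsPreBrownianReal B Q) (h : Integrand B Q t H) {I : Ω → ℝ}
    (hI : IsItoIntegral B Q H t I) :
    Tendsto (fun n => (h.memLp_itoSum hB n).toLp (itoSum B H t n)) atTop (𝓝 (hI.1.toLp I)) := by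
  rw [tendsto_iff_dist_tendsto_zero]
  have h2 := hI.2.sqrt
  rw [Real.sqrt_zero] at h2
  refine h2.congr fun n => ?_
  rw [← l2_dist_sq (h.memLp_itoSum hB n) hI.1, Real.sqrt_sq dist_nonneg]

/-- The integral is unique. -/
theorem IsItoIntegral.unique (hB : IsPreBrownianReal B Q) (h : Integrand B Q t H) {I J : Ω → ℝ}
    (hI : IsItoIntegral B Q H t I) (hJ : IsItoIntegral B Q H t J) : I =ᵐ[Q] J :=
  (MemLp.toLp_eq_toLp_iff hI.1 hJ.1).1
    (tendsto_nhds_unique (hI.tendsto_toLp hB h) (hJ.tendsto_toLp hB h))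

/-- Means against bounded functions pass to the limit. -/
theorem tendsto_integral_mul [IsProbabilityMeasure Q] {f : ℕ → Ω → ℝ} {g φ : Ω → ℝ}
    (hf : ∀ n, MemLp (f n) 2 Q) (hg : MemLp g 2 Q) (hφ : AEStronglyMeasurable φ Q) {C : ℝ}
    (hC : ∀ ω, |φ ω| ≤ C) (hlim : Tendsto (fun n => ∫ ω, (f n ω - g ω) ^ 2 ∂Q) atTop (𝓝 0)) :
    Tendsto (fun n => ∫ ω, f n ω * φ ω ∂Q) atTop (𝓝 (∫ ω, g ω * φ ω ∂Q)) := by
  have hφ2 : MemLp φ 2 Q := MemLp.of_bound hφ C (Eventually.of_forall fun ω => hC ω)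
  have h : ∀ {u : Ω → ℝ} (hu : MemLp u 2 Q),
      ∫ ω, u ω * φ ω ∂Q = inner ℝ (hφ2.toLp φ) (hu.toLp u) := fun {u} hu => by
    rw [L2.inner_def]
    refine integral_congr_ae ?_
    filter_upwards [hu.coeFn_toLp, hφ2.coeFn_toLp] with ω h1 h2
    rw [h1, h2]
    simp [mul_comm]
  simp only [h (hf _), h hg]
  refine ((continuous_const.inner continuous_id).tendsto _).comp ?_
  rw [tendsto_iff_dist_tendsto_zero]
  have h2 := hlim.sqrt
  rw [Real.sqrt_zero] at h2
  refine h2.congr fun n => ?_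
  show √(∫ ω, (f n ω - g ω) ^ 2 ∂Q) = dist ((hf n).toLp (f n)) (hg.toLp g)
  rw [← l2_dist_sq (hf n) hg, Real.sqrt_sq dist_nonneg]

/-- The integral has mean `0`. -/
theorem IsItoIntegral.integral_eq_zero (hB : IsPreBrownianReal B Q) (h : Integrand B Q t H)
    {I : Ω → ℝ} (hI : IsItoIntegral B Q H t I) : ∫ ω, I ω ∂Q = 0 := by
  have := hB.isGaussianProcess.isProbabilityMeasure
  have hlim := tendsto_integral_mul (h.memLp_itoSum hB) hI.1 (φ := fun _ => (1 : ℝ))
    aestronglyMeasurable_const (C := 1) (fun _ => (abs_one).le) hI.2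
  simp only [mul_one] at hlim
  refine tendsto_nhds_unique hlim (tendsto_const_nhds.congr fun n => ?_)
  have h0 := h.integral_partSum hB (monotone_subGrid t n) (subGrid_le t le_rfl)
    (r := 0) (φ := fun _ => (1 : ℝ)) (n := n) zero_le (pastFun_const 0 1)
    aestronglyMeasurable_const 1 fun _ => (abs_one).le
  simp only [mul_one] at h0
  exact h0.symm

/-- Left Riemann sums tend to the integral. -/
theorem tendsto_riemann {φ : ℝ → ℝ} {T : ℝ} (hT : 0 ≤ T) (hφ : ContinuousOn φ (Set.Icc 0 T)) :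
    Tendsto (fun n : ℕ => ∑ k ∈ range n, T / n * φ (T * k / n)) atTop
      (𝓝 (∫ x in (0 : ℝ)..T, φ x)) := by
  rw [Metric.tendsto_atTop]
  intro ε hε
  obtain ⟨δ, hδ, hu⟩ := Metric.uniformContinuousOn_iff_le.1
    (isCompact_Icc.uniformContinuousOn_of_continuous hφ) (ε / 2 / (T + 1)) (by positivity)
  obtain ⟨N, hN⟩ := eventually_atTop.1
    (((tendsto_const_div_atTop_nhds_zero_nat T).eventually_le_const hδ).and (eventually_gt_atTop 0))
  refine ⟨N, fun n hn => lt_of_le_of_lt ?_ (half_lt_self hε)⟩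
  obtain ⟨hmesh, hn0⟩ := hN n hn
  set a : ℕ → ℝ := fun k => T * k / n
  have hn' : (0 : ℝ) < n := Nat.cast_pos.2 hn0
  have ha : ∀ k ≤ n, a k ∈ Set.Icc 0 T := fun k hk => ⟨by positivity, by
    rw [div_le_iff₀ hn']
    exact mul_le_mul_of_nonneg_left (by exact_mod_cast hk) hT⟩
  have hstep : ∀ k, a (k + 1) - a k = T / n := fun k => by
    simp only [a]
    push_cast
    ring
  have hle : ∀ k, a k ≤ a (k + 1) := fun k => by
    linarith [hstep k, div_nonneg hT hn'.le]
  have hint : ∀ k < n, IntervalIntegrable φ volume (a k) (a (k + 1)) := fun k hk =>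
    (hφ.mono (Set.Icc_subset_Icc (ha k hk.le).1 (ha (k + 1) hk).2)).intervalIntegrable_of_Icc
      (hle k)
  have e0 : a 0 = 0 := by simp [a]
  have en : a n = T := mul_div_cancel_right₀ _ hn'.ne'
  have hsum : ∑ k ∈ range n, ∫ x in (a k)..(a (k + 1)), φ x = ∫ x in (0 : ℝ)..T, φ x := by
    rw [intervalIntegral.sum_integral_adjacent_intervals hint, e0, en]
  rw [Real.dist_eq, ← hsum, ← sum_sub_distrib]
  refine (abs_sum_le_sum_abs _ _).trans (le_trans (sum_le_sum (g := fun _ =>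
    ε / 2 / (T + 1) * (T / n)) fun k hk => ?_) ?_)
  · have hk' := mem_range.1 hk
    have hconst : T / n * φ (a k) = ∫ _ in (a k)..(a (k + 1)), φ (a k) := by
      rw [intervalIntegral.integral_const, hstep, smul_eq_mul]
    show |T / n * φ (a k) - ∫ x in (a k)..(a (k + 1)), φ x| ≤ _
    rw [hconst, ← intervalIntegral.integral_sub intervalIntegrable_const (hint k hk'),
      ← Real.norm_eq_abs]
    refine (intervalIntegral.norm_integral_le_of_norm_le_const (C := ε / 2 / (T + 1))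
      fun x hx => ?_).trans_eq (by rw [hstep, abs_of_nonneg (by positivity)])
    rw [Set.uIoc_of_le (hle k)] at hx
    rw [← dist_eq_norm]
    refine hu _ (ha k hk'.le) _ ⟨(ha k hk'.le).1.trans hx.1.le, hx.2.trans (ha (k + 1) hk').2⟩ ?_
    rw [Real.dist_eq, abs_sub_comm, abs_of_nonneg (by linarith [hx.1])]
    linarith [hx.2, hstep k]
  · rw [sum_const, card_range, nsmul_eq_mul, ← mul_assoc, mul_comm (n : ℝ), mul_assoc,
      mul_div_cancel₀ _ hn'.ne']
    calc ε / 2 / (T + 1) * T ≤ ε / 2 / (T + 1) * (T + 1) :=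
          mul_le_mul_of_nonneg_left (by linarith) (by positivity)
      _ = ε / 2 := div_mul_cancel₀ _ (by positivity)

/-- The mean square of the weights is continuous. -/
theorem Integrand.continuousOn_meanSq (h : Integrand B Q t H) :
    ContinuousOn (fun x : ℝ => ∫ ω, H x.toNNReal ω ^ 2 ∂Q) (Set.Icc 0 (t : ℝ)) := by
  have hmem : ∀ x ∈ Set.Icc 0 (t : ℝ), x.toNNReal ≤ t := fun x hx =>
    Real.toNNReal_le_iff_le_coe.2 hx.2
  rw [continuousOn_iff_continuous_domRestrict]
  have hc : Continuous fun x : Set.Icc 0 (t : ℝ) =>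
      (h.memLp _ (hmem x x.2)).toLp (H (x : ℝ).toNNReal) := by
    refine continuous_iff_continuousAt.2 fun x => ?_
    rw [ContinuousAt, tendsto_iff_dist_tendsto_zero]
    have h1 : Tendsto (fun y : Set.Icc 0 (t : ℝ) => (y : ℝ).toNNReal) (𝓝 x)
        (𝓝[Set.Iic t] (x : ℝ).toNNReal) :=
      tendsto_nhdsWithin_of_tendsto_nhds_of_eventually_within _
        ((continuous_real_toNNReal.comp continuous_subtype_val).tendsto x)
        (Eventually.of_forall fun y => hmem y y.2)
    have h2 := ((h.cont _ (hmem x x.2)).comp h1).sqrt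
    rw [Real.sqrt_zero] at h2
    exact h2.congr fun y => by
      rw [Function.comp_apply, ← l2_dist_sq (h.memLp _ (hmem y y.2)) (h.memLp _ (hmem x x.2)),
        Real.sqrt_sq dist_nonneg]
  exact (hc.norm.pow 2).congr fun x => l2_norm_sq _

/-- **The isometry of Itô.** -/
theorem IsItoIntegral.isometry (hB : IsPreBrownianReal B Q) (h : Integrand B Q t H) {I : Ω → ℝ}
    (hI : IsItoIntegral B Q H t I) :
    ∫ ω, I ω ^ 2 ∂Q = ∫ x in (0 : ℝ)..t, ∫ ω, H x.toNNReal ω ^ 2 ∂Q := by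
  have h1 := ((hI.tendsto_toLp hB h).norm.pow 2)
  simp only [l2_norm_sq] at h1
  refine tendsto_nhds_unique h1 ((tendsto_riemann t.coe_nonneg h.continuousOn_meanSq).congr
    fun n => ?_)
  rw [itoSum, h.integral_partSum_sq hB (monotone_subGrid t n) (subGrid_le t le_rfl)]
  refine sum_congr rfl fun k _ => ?_
  rw [subGrid_mesh, ← coe_subGrid, Real.toNNReal_coe]

/-- **The martingale property.** -/
theorem IsItoIntegral.martingale (hB : IsPreBrownianReal B Q) (h : Integrand B Q t H) {r : ℝ≥0}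
    (hr : r ≤ t) {I J : Ω → ℝ} (hI : IsItoIntegral B Q H t I) (hJ : IsItoIntegral B Q H r J)
    {φ : Ω → ℝ} (hφ : PastFun B Q r φ) (hφm : AEStronglyMeasurable φ Q) {C : ℝ}
    (hC : ∀ ω, |φ ω| ≤ C) : ∫ ω, I ω * φ ω ∂Q = ∫ ω, J ω * φ ω ∂Q := by
  have := hB.isGaussianProcess.isProbabilityMeasure
  set u : ℕ → ℕ → ℝ≥0 := fun n k =>
    if k ≤ n then subGrid r n k else r + subGrid (t - r) n (k - n)
  have hu : ∀ n, 0 < n → ∀ k, n ≤ k → u n k = r + subGrid (t - r) n (k - n) := by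
    intro n hn k hk
    rcases hk.eq_or_lt with rfl | hlt
    · simp only [u, if_pos le_rfl, Nat.sub_self, subGrid_zero, add_zero, subGrid_self r hn]
    · simp only [u, if_neg (not_le.2 hlt)]
  have hmono : ∀ n, 0 < n → Monotone (u n) := fun n hn => monotone_nat_of_le_succ fun k => by
    rcases lt_or_ge k n with hk | hk
    · simp only [u, if_pos hk.le, if_pos (Nat.succ_le_of_lt hk)]
      exact monotone_subGrid r n k.le_succ
    · rw [hu n hn k hk, hu n hn (k + 1) (hk.trans k.le_succ)]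
      exact add_le_add_right (monotone_subGrid _ n (Nat.sub_le_sub_right k.le_succ n)) r
  have hend : ∀ n, 0 < n → u n (n + n) = t := fun n hn => by
    rw [hu n hn _ (Nat.le_add_right n n), Nat.add_sub_cancel, subGrid_self _ hn,
      add_tsub_cancel_of_le hr]
  have hS : Tendsto (fun n => ∫ ω, (partSum B H (u n) (n + n) ω - I ω) ^ 2 ∂Q) atTop (𝓝 0) := by
    have hz : Tendsto (fun n => ∫ ω, (partSum B H (u n) (n + n) ω - itoSum B H t n ω) ^ 2 ∂Q) atTop
        (𝓝 0) := by
      refine Metric.tendsto_nhds.2 fun ε hε => ?_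
      obtain ⟨δ, hδ, hc⟩ := h.close hB (half_pos hε)
      filter_upwards [eventually_mesh_lt t hδ] with n hn
      rw [Real.dist_eq, sub_zero, abs_of_nonneg (integral_nonneg fun ω => sq_nonneg _)]
      refine lt_of_le_of_lt (hc (u n) (subGrid t n) (n + n) n (hmono n hn.1) (monotone_subGrid t n)
        (hend n hn.1).le (by simp [u, subGrid_zero]) (by rw [hend n hn.1, subGrid_self t hn.1])
        (fun i _ => lt_of_le_of_lt ?_ hn.2) fun j _ => (subGrid_mesh t n j).trans_lt hn.2)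
        (half_lt_self hε)
      rcases lt_or_ge i n with hi | hi
      · simp only [u, if_pos hi.le, if_pos (Nat.succ_le_of_lt hi), subGrid_mesh]
        gcongr
      · rw [hu n hn.1 i hi, hu n hn.1 (i + 1) (hi.trans i.le_succ), Nat.succ_sub hi,
          NNReal.coe_add, NNReal.coe_add, add_sub_add_left_eq_sub, subGrid_mesh,
          NNReal.coe_sub hr]
        gcongr
        linarith [r.coe_nonneg]
    refine squeeze_zero' (Eventually.of_forall fun n => integral_nonneg fun ω => sq_nonneg _)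
      ?_ (by simpa using (hz.const_mul 2).add (hI.2.const_mul 2))
    filter_upwards [eventually_gt_atTop 0] with n hn
    have m1 := h.memLp_partSum hB (hmono n hn) (hend n hn).le
    have m2 := h.memLp_itoSum hB n
    have i1 : Integrable (fun ω => 2 * (partSum B H (u n) (n + n) ω - itoSum B H t n ω) ^ 2) Q :=
      (m1.sub m2).integrable_sq.const_mul 2
    have i2 : Integrable (fun ω => 2 * (itoSum B H t n ω - I ω) ^ 2) Q :=
      (m2.sub hI.1).integrable_sq.const_mul 2
    rw [← integral_const_mul, ← integral_const_mul, ← integral_add i1 i2]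
    refine integral_mono (m1.sub hI.1).integrable_sq (i1.add i2) fun ω => ?_
    nlinarith [sq_nonneg (partSum B H (u n) (n + n) ω - 2 * itoSum B H t n ω + I ω)]
  have hsplit : ∀ n, 0 < n → ∫ ω, partSum B H (u n) (n + n) ω * φ ω ∂Q =
      ∫ ω, itoSum B H r n ω * φ ω ∂Q := by
    intro n hn
    have hsum : ∀ ω, partSum B H (u n) (n + n) ω =
        itoSum B H r n ω + partSum B H (fun k => u n (n + k)) n ω := fun ω => by
      rw [partSum, sum_range_add, itoSum]
      congr 1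
      refine sum_congr rfl fun k hk => ?_
      simp only [u, if_pos (mem_range.1 hk).le, if_pos (Nat.succ_le_of_lt (mem_range.1 hk))]
    have hm2 : Monotone fun k => u n (n + k) :=
      fun a b hab => hmono n hn (Nat.add_le_add_left hab n)
    have hz := h.integral_partSum hB (n := n) hm2 (hend n hn).le (φ := φ) (r := r)
      (show r ≤ u n (n + 0) by simp [u, subGrid_self r hn]) hφ hφm C hC
    have hr' : Integrand B Q r H :=
      ⟨fun x hx => h.past x (hx.trans hr), fun x hx => h.memLp x (hx.trans hr),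
        fun x hx => (h.cont x (hx.trans hr)).mono_left
          (nhdsWithin_mono _ (Set.Iic_subset_Iic.2 hr))⟩
    have hφ2 : MemLp φ 2 Q := MemLp.of_bound hφm C (Eventually.of_forall fun ω => hC ω)
    have j1 : Integrable (fun ω => itoSum B H r n ω * φ ω) Q :=
      (hr'.memLp_itoSum hB n).integrable_mul hφ2
    have j2 : Integrable (fun ω => partSum B H (fun k => u n (n + k)) n ω * φ ω) Q :=
      (h.memLp_partSum hB hm2 (hend n hn).le).integrable_mul hφ2
    simp only [hsum, add_mul]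
    rw [integral_add j1 j2, hz, add_zero]
  have hu' : ∀ n, MemLp (partSum B H (u (n + 1)) (n + 1 + (n + 1))) 2 Q := fun n =>
    h.memLp_partSum hB (hmono _ n.succ_pos) (hend _ n.succ_pos).le
  have hr' : Integrand B Q r H :=
    ⟨fun x hx => h.past x (hx.trans hr), fun x hx => h.memLp x (hx.trans hr),
      fun x hx => (h.cont x (hx.trans hr)).mono_left
        (nhdsWithin_mono _ (Set.Iic_subset_Iic.2 hr))⟩
  refine tendsto_nhds_unique
    (tendsto_integral_mul hu' hI.1 hφm hC (hS.comp (tendsto_add_atTop_nat 1)))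
    ((tendsto_integral_mul (hr'.memLp_itoSum hB) hJ.1 hφm hC hJ.2).comp
      (tendsto_add_atTop_nat 1) |>.congr fun n => ?_)
  exact (hsplit (n + 1) n.succ_pos).symm

end FA.ItoCalculus
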