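import Mathlib.Probability.BrownianMotion.Basic
import Mathlib.Probability.Distributions.Gaussian.Real
import Mathlib.Probability.Independence.Integration
import Mathlib.MeasureTheory.Function.L2Space

/-!
# The isometry for increments with weights from the past

For weights `a`, `b` that depend on the past of `i₀` and of `j₀`, the mean of
`a (B i₁ - B i₀) · b (B j₁ - B j₀)` is the length of the common part of the two intervals times the
mean of `a b`.
-/

set_option autoImplicit false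

noncomputable section

namespace FA.ItoCalculus

open MeasureTheory ProbabilityTheory
open scoped NNReal ENNReal

variable {Ω : Type*} {mΩ : MeasurableSpace Ω} {Q : Measure Ω} {B : ℝ≥0 → Ω → ℝ}

/-- The path up to time `r`. -/
def pastPath (B : ℝ≥0 → Ω → ℝ) (r : ℝ≥0) (ω : Ω) (s : Set.Iic r) : ℝ := B s ω

/-- A function of the past of `r`. -/
def PastFun (B : ℝ≥0 → Ω → ℝ) (Q : Measure Ω) (r : ℝ≥0) (f : Ω → ℝ) : Prop :=
  ∃ g : (Set.Iic r → ℝ) → ℝ, Measurable g ∧ f =ᵐ[Q] fun ω => g (pastPath B r ω)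

theorem pastFun_eval {r s : ℝ≥0} (h : s ≤ r) : PastFun B Q r (B s) :=
  ⟨fun x => x ⟨s, h⟩, measurable_pi_apply _, Filter.EventuallyEq.rfl⟩

theorem pastFun_const (r : ℝ≥0) (c : ℝ) : PastFun B Q r fun _ => c :=
  ⟨fun _ => c, measurable_const, Filter.EventuallyEq.rfl⟩

theorem PastFun.mul {r : ℝ≥0} {f g : Ω → ℝ} (hf : PastFun B Q r f) (hg : PastFun B Q r g) :
    PastFun B Q r fun ω => f ω * g ω := by
  obtain ⟨u, hu, eu⟩ := hf
  obtain ⟨v, hv, ev⟩ := hg
  exact ⟨fun x => u x * v x, hu.mul hv, eu.mul ev⟩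

theorem PastFun.sub {r : ℝ≥0} {f g : Ω → ℝ} (hf : PastFun B Q r f) (hg : PastFun B Q r g) :
    PastFun B Q r fun ω => f ω - g ω := by
  obtain ⟨u, hu, eu⟩ := hf
  obtain ⟨v, hv, ev⟩ := hg
  exact ⟨fun x => u x - v x, hu.sub hv, eu.sub ev⟩

theorem PastFun.comp {r : ℝ≥0} {f : Ω → ℝ} (hf : PastFun B Q r f) {φ : ℝ → ℝ}
    (hφ : Measurable φ) : PastFun B Q r fun ω => φ (f ω) := by
  obtain ⟨u, hu, eu⟩ := hf
  exact ⟨fun x => φ (u x), hφ.comp hu, eu.fun_comp φ⟩

theorem PastFun.mono {r r' : ℝ≥0} {f : Ω → ℝ} (hf : PastFun B Q r f) (h : r ≤ r') :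
    PastFun B Q r' f := by
  obtain ⟨u, hu, eu⟩ := hf
  exact ⟨fun x => u fun s : Set.Iic r => x ⟨s, le_trans s.2 h⟩,
    hu.comp (measurable_pi_lambda _ fun s => measurable_pi_apply _), eu⟩

theorem PastFun.indepFun (hB : IsPreBrownianReal B Q) {r s : ℝ≥0} {f : Ω → ℝ}
    (hf : PastFun B Q r f) (h : r ≤ s) : IndepFun f (fun ω => B s ω - B r ω) Q := by
  obtain ⟨u, hu, eu⟩ := hf
  refine ((hB.indepFun_shift r).symm.comp (φ := u) (ψ := fun x : ℝ≥0 → ℝ => x (s - r)) hu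
    (measurable_pi_apply _)).congr eu.symm (Filter.Eventually.of_forall fun ω => ?_)
  show B (r + (s - r)) ω - B r ω = B s ω - B r ω
  rw [add_tsub_cancel_of_le h]

/-- A measurable function of the path up to `r` is measurable up to null sets. -/
theorem aemeasurable_pastFun (hB : IsPreBrownianReal B Q) {r : ℝ≥0}
    {g : (Set.Iic r → ℝ) → ℝ} (hg : Measurable g) :
    AEMeasurable (fun ω => g (pastPath B r ω)) Q := by
  have hp : NullMeasurable (pastPath B r) Q :=
    @measurable_pi_lambda (NullMeasurableSpace Ω Q) _ _ _ _ (pastPath B r) fun s =>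
      (hB.aemeasurable _).nullMeasurable
  exact (hg.comp_nullMeasurable hp).aemeasurable

theorem hasLaw_increment (hB : IsPreBrownianReal B Q) {r s : ℝ≥0} (h : r ≤ s) :
    HasLaw (fun ω => B s ω - B r ω) (gaussianReal 0 (s - r)) Q := by
  have hlaw := hB.hasLaw_sub s r
  have e : nndist s.1 r.1 = s - r := by
    refine NNReal.eq ?_
    rw [coe_nndist, Real.dist_eq, NNReal.coe_sub h]
    exact abs_of_nonneg (sub_nonneg.2 (NNReal.coe_le_coe.2 h))
  rw [e] at hlaw
  exact hlaw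

theorem integral_increment (hB : IsPreBrownianReal B Q) {r s : ℝ≥0} (h : r ≤ s) :
    ∫ ω, (B s ω - B r ω) ∂Q = 0 := by
  rw [(hasLaw_increment hB h).integral_eq, integral_id_gaussianReal]

theorem integral_increment_sq (hB : IsPreBrownianReal B Q) {r s : ℝ≥0} (h : r ≤ s) :
    ∫ ω, (B s ω - B r ω) ^ 2 ∂Q = (s : ℝ) - r := by
  rw [show (fun ω => (B s ω - B r ω) ^ 2) = (fun y : ℝ => y ^ 2) ∘ fun ω => B s ω - B r ω from rfl,
    (hasLaw_increment hB h).integral_comp (by fun_prop)]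
  have hv := variance_id_gaussianReal (μ := 0) (v := s - r)
  rw [variance_of_integral_eq_zero aemeasurable_id integral_id_gaussianReal, NNReal.coe_sub h] at hv
  simpa using hv

theorem memLp_increment (hB : IsPreBrownianReal B Q) (r s : ℝ≥0) :
    MemLp (fun ω => B s ω - B r ω) 2 Q :=
  (hB.isGaussianProcess.hasGaussianLaw_eval _).memLp_two.sub
    (hB.isGaussianProcess.hasGaussianLaw_eval _).memLp_two

/-- A weight from the past times an increment is square integrable. -/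
theorem PastFun.memLp_mul (hB : IsPreBrownianReal B Q) {r s : ℝ≥0} {a : Ω → ℝ}
    (ha : PastFun B Q r a) (ha2 : MemLp a 2 Q) (h : r ≤ s) :
    MemLp (fun ω => a ω * (B s ω - B r ω)) 2 Q := by
  have hd := memLp_increment hB r s
  refine (memLp_two_iff_integrable_sq (ha2.1.mul hd.1)).2 ?_
  have hi := ((ha.indepFun hB h).comp (φ := fun y : ℝ => y ^ 2) (ψ := fun y : ℝ => y ^ 2)
    (by fun_prop) (by fun_prop)).integrable_mul ha2.integrable_sq hd.integrable_sq
  exact hi.congr (Filter.Eventually.of_forall fun ω => (mul_pow _ _ 2).symm)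

theorem integral_past_mul (hB : IsPreBrownianReal B Q) {r s : ℝ≥0} {X : Ω → ℝ}
    (hX : PastFun B Q r X) (hXi : AEStronglyMeasurable X Q) (h : r ≤ s) :
    ∫ ω, X ω * (B s ω - B r ω) ∂Q = 0 := by
  rw [(hX.indepFun hB h).integral_fun_mul_eq_mul_integral hXi (memLp_increment hB r s).1,
    integral_increment hB h, mul_zero]

theorem integral_past_mul_sq (hB : IsPreBrownianReal B Q) {r s : ℝ≥0} {X : Ω → ℝ}
    (hX : PastFun B Q r X) (hXi : AEStronglyMeasurable X Q) (h : r ≤ s) :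
    ∫ ω, X ω * (B s ω - B r ω) ^ 2 ∂Q = ((s : ℝ) - r) * ∫ ω, X ω ∂Q := by
  have e := (hX.indepFun hB h).integral_fun_comp_mul_comp (f := fun y : ℝ => y)
    (g := fun y : ℝ => y ^ 2) hXi.aemeasurable (memLp_increment hB r s).1.aemeasurable
    (by fun_prop) (by fun_prop)
  rw [e, integral_increment_sq hB h, mul_comm]

/-- The projection to `[i₀, i₁]`. -/
def clampTo (i₀ i₁ x : ℝ) : ℝ := min (max x i₀) i₁

/-- The length of the common part of `[i₀, i₁]` and `[j₀, j₁]`. -/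
def overlap (i₀ i₁ j₀ j₁ : ℝ) : ℝ := clampTo i₀ i₁ j₁ - clampTo i₀ i₁ j₀

theorem overlap_eq {i₀ i₁ j₀ j₁ : ℝ} (hi : i₀ ≤ i₁) (hj : j₀ ≤ j₁) :
    overlap i₀ i₁ j₀ j₁ = max 0 (min i₁ j₁ - max i₀ j₀) := by
  simp only [overlap, clampTo, max_def, min_def]
  split_ifs <;> linarith

theorem overlap_comm {i₀ i₁ j₀ j₁ : ℝ} (hi : i₀ ≤ i₁) (hj : j₀ ≤ j₁) :
    overlap i₀ i₁ j₀ j₁ = overlap j₀ j₁ i₀ i₁ := by
  rw [overlap_eq hi hj, overlap_eq hj hi, min_comm, max_comm i₀ j₀]

theorem overlap_nonneg {i₀ i₁ j₀ j₁ : ℝ} (hi : i₀ ≤ i₁) (hj : j₀ ≤ j₁) :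
    0 ≤ overlap i₀ i₁ j₀ j₁ := (overlap_eq hi hj).symm ▸ le_max_left _ _

/-- **The isometry for two intervals.** -/
theorem integral_mul_mul (hB : IsPreBrownianReal B Q) {i₀ i₁ j₀ j₁ : ℝ≥0} (hi : i₀ ≤ i₁)
    (hj : j₀ ≤ j₁) {a b : Ω → ℝ} (ha : PastFun B Q i₀ a) (hb : PastFun B Q j₀ b)
    (ha2 : MemLp a 2 Q) (hb2 : MemLp b 2 Q) :
    ∫ ω, a ω * (B i₁ ω - B i₀ ω) * (b ω * (B j₁ ω - B j₀ ω)) ∂Q =
      overlap i₀ i₁ j₀ j₁ * ∫ ω, a ω * b ω ∂Q := by
  wlog hle : i₀ ≤ j₀ generalizing i₀ i₁ j₀ j₁ a b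
  · have h := this hj hi hb ha hb2 ha2 (le_of_not_ge hle)
    rw [overlap_comm (NNReal.coe_le_coe.2 hi) (NNReal.coe_le_coe.2 hj)]
    refine Eq.trans (integral_congr_ae (Filter.Eventually.of_forall fun ω => ?_)) (h.trans ?_)
    · ring
    · exact congrArg _ (integral_congr_ae (Filter.Eventually.of_forall fun ω => mul_comm _ _))
  have hA : ∀ p q : ℝ≥0, i₀ ≤ p → p ≤ q → PastFun B Q p a := fun p q hp _ => ha.mono hp
  rcases le_total i₁ j₀ with h1 | h1
  · have hX : PastFun B Q j₀ fun ω => a ω * (B i₁ ω - B i₀ ω) * b ω :=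
      ((ha.mono hle).mul ((pastFun_eval h1).sub (pastFun_eval hle))).mul hb
    have hXi : AEStronglyMeasurable (fun ω => a ω * (B i₁ ω - B i₀ ω) * b ω) Q :=
      (ha2.1.mul (memLp_increment hB i₀ i₁).1).mul hb2.1
    have e : overlap i₀ i₁ j₀ j₁ = 0 := by
      rw [overlap_eq (NNReal.coe_le_coe.2 hi) (NNReal.coe_le_coe.2 hj), max_eq_left]
      have := min_le_left (i₁ : ℝ) j₁
      have := le_max_right (i₀ : ℝ) j₀
      have : (i₁ : ℝ) ≤ j₀ := NNReal.coe_le_coe.2 h1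
      linarith
    rw [e, zero_mul, ← integral_past_mul hB hX hXi hj]
    exact integral_congr_ae (Filter.Eventually.of_forall fun ω => by ring)
  · set m := min i₁ j₁
    have hjm : j₀ ≤ m := le_min h1 hj
    have hmi : m ≤ i₁ := min_le_left _ _
    have hmj : m ≤ j₁ := min_le_right _ _
    have ha' : PastFun B Q j₀ a := hA j₀ j₀ hle le_rfl
    have hbm : PastFun B Q m b := hb.mono hjm
    have e : overlap i₀ i₁ j₀ j₁ = (m : ℝ) - j₀ := by
      rw [overlap_eq (NNReal.coe_le_coe.2 hi) (NNReal.coe_le_coe.2 hj),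
        max_eq_right (NNReal.coe_le_coe.2 hle), ← NNReal.coe_min, max_eq_right]
      exact sub_nonneg.2 (NNReal.coe_le_coe.2 hjm)
    have hb' : MemLp (fun ω => b ω * (B j₁ ω - B j₀ ω)) 2 Q := hb.memLp_mul hB hb2 hj
    have hbj : MemLp (fun ω => b ω * (B m ω - B j₀ ω)) 2 Q := hb.memLp_mul hB hb2 hjm
    have hbr : MemLp (fun ω => b ω * (B j₁ ω - B m ω)) 2 Q := hbm.memLp_mul hB hb2 hmj
    have hal : MemLp (fun ω => a ω * (B j₀ ω - B i₀ ω)) 2 Q := ha.memLp_mul hB ha2 hle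
    have ham : MemLp (fun ω => a ω * (B m ω - B j₀ ω)) 2 Q := ha'.memLp_mul hB ha2 hjm
    have har : MemLp (fun ω => a ω * (B i₁ ω - B m ω)) 2 Q :=
      (ha.mono (hle.trans hjm)).memLp_mul hB ha2 hmi
    have hT1 : ∫ ω, a ω * (B j₀ ω - B i₀ ω) * (b ω * (B j₁ ω - B j₀ ω)) ∂Q = 0 := by
      rw [← integral_past_mul hB ((ha'.mul ((pastFun_eval le_rfl).sub (pastFun_eval hle))).mul hb)
        ((ha2.1.mul (memLp_increment hB i₀ j₀).1).mul hb2.1) hj]
      exact integral_congr_ae (Filter.Eventually.of_forall fun ω => by ring)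
    have hT2 : ∫ ω, a ω * (B m ω - B j₀ ω) * (b ω * (B m ω - B j₀ ω)) ∂Q =
        ((m : ℝ) - j₀) * ∫ ω, a ω * b ω ∂Q := by
      rw [← integral_past_mul_sq hB (ha'.mul hb) (ha2.1.mul hb2.1) hjm]
      exact integral_congr_ae (Filter.Eventually.of_forall fun ω => by ring)
    have hT3 : ∫ ω, a ω * (B m ω - B j₀ ω) * (b ω * (B j₁ ω - B m ω)) ∂Q = 0 := by
      rw [← integral_past_mul hB (((ha'.mono hjm).mul ((pastFun_eval le_rfl).sub
        (pastFun_eval hjm))).mul hbm) ((ha2.1.mul (memLp_increment hB j₀ m).1).mul hb2.1) hmj]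
      exact integral_congr_ae (Filter.Eventually.of_forall fun ω => by ring)
    have hT4 : ∫ ω, a ω * (B i₁ ω - B m ω) * (b ω * (B m ω - B j₀ ω)) ∂Q = 0 := by
      rw [← integral_past_mul hB (((ha'.mono hjm).mul hbm).mul ((pastFun_eval le_rfl).sub
        (pastFun_eval hjm))) ((ha2.1.mul hb2.1).mul (memLp_increment hB j₀ m).1) hmi]
      exact integral_congr_ae (Filter.Eventually.of_forall fun ω => by ring)
    have hT5 : ∫ ω, a ω * (B i₁ ω - B m ω) * (b ω * (B j₁ ω - B m ω)) ∂Q = 0 := by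
      rcases min_choice i₁ j₁ with hm | hm
      · simp [m, hm]
      · simp [m, hm]
    calc ∫ ω, a ω * (B i₁ ω - B i₀ ω) * (b ω * (B j₁ ω - B j₀ ω)) ∂Q
        = ∫ ω, (a ω * (B j₀ ω - B i₀ ω) * (b ω * (B j₁ ω - B j₀ ω)) +
            a ω * (B m ω - B j₀ ω) * (b ω * (B m ω - B j₀ ω)) +
            a ω * (B m ω - B j₀ ω) * (b ω * (B j₁ ω - B m ω)) +
            a ω * (B i₁ ω - B m ω) * (b ω * (B m ω - B j₀ ω)) +
            a ω * (B i₁ ω - B m ω) * (b ω * (B j₁ ω - B m ω))) ∂Q :=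
          integral_congr_ae (Filter.Eventually.of_forall fun ω => by ring)
      _ = _ := by
        have i1 := hal.integrable_mul hb'
        have i2 := ham.integrable_mul hbj
        have i3 := ham.integrable_mul hbr
        have i4 := har.integrable_mul hbj
        have i5 := har.integrable_mul hbr
        have i12 := i1.add i2
        have i123 := i12.add i3
        have i1234 := i123.add i4
        simp only [Pi.mul_def, Pi.add_def] at i1 i2 i3 i4 i5 i12 i123 i1234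
        rw [integral_add i1234 i5, integral_add i123 i4, integral_add i12 i3, integral_add i1 i2,
          hT1, hT2, hT3, hT4, hT5, e]
        ring

end FA.ItoCalculus
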